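import Mathlib.Analysis.SpecialFunctions.JapaneseBracket
import Mathlib.Analysis.SpecialFunctions.Pow.Continuity
import Mathlib.Analysis.SpecialFunctions.Pow.Deriv
import Mathlib.Analysis.Convex.SpecificFunctions.Basic
import Mathlib.MeasureTheory.Measure.Haar.NormedSpace
import Mathlib.MeasureTheory.Integral.DominatedConvergence

/-!
# Homogeneous kernels and their tail integrals

A kernel is a family `f e` of functions homogeneous of degree `-e` on a `d`-dimensional space,
`d ≤ e ≤ d + 1`, Lipschitz away from the origin. Its integral outside the unit ball has residue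
`(∫ over 1 < ‖x‖ ≤ 2 of f d) / log 2` at `e = d`; no polar coordinates are needed.
-/

set_option autoImplicit false

noncomputable section

open MeasureTheory Module Filter Set
open scoped Topology

namespace Fermat.Agent.LT.Epstein

variable {E : Type*} [NormedAddCommGroup E] [NormedSpace ℝ E] [MeasurableSpace E]

/-- The range of exponents. -/
def expRange (E : Type*) [NormedAddCommGroup E] [NormedSpace ℝ E] : Set ℝ :=
  Icc (finrank ℝ E : ℝ) (finrank ℝ E + 1)

/-- A homogeneous kernel. -/
structure Kernel (E : Type*) [NormedAddCommGroup E] [NormedSpace ℝ E] [MeasurableSpace E] where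
  /-- The functions. -/
  f : ℝ → E → ℝ
  /-- The bound. -/
  A : ℝ
  /-- The Lipschitz constant. -/
  B : ℝ
  A_nonneg : 0 ≤ A
  B_nonneg : 0 ≤ B
  zero : ∀ e ∈ expRange E, f e 0 = 0
  bound : ∀ e ∈ expRange E, ∀ v ≠ 0, |f e v| ≤ A * ‖v‖ ^ (-e)
  lip : ∀ e ∈ expRange E, ∀ v w, v ≠ 0 → ‖w - v‖ ≤ ‖v‖ / 2 →
    |f e v - f e w| ≤ B * ‖w - v‖ * ‖v‖ ^ (-e - 1)
  scale : ∀ e ∈ expRange E, ∀ t : ℝ, 0 < t → ∀ v, f e (t • v) = t ^ (-e) * f e v
  meas : ∀ e, Measurable (f e)
  cont : ∀ v ≠ 0, ContinuousOn (fun e => f e v) (expRange E)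

/-- The complement of a ball. -/
def outside (E : Type*) [NormedAddCommGroup E] (R : ℝ) : Set E := {x | R < ‖x‖}

variable [BorelSpace E]

omit [NormedSpace ℝ E] in
/-- The complement of a ball is measurable. -/
lemma measurableSet_outside (R : ℝ) : MeasurableSet (outside E R) :=
  (isOpen_lt continuous_const continuous_norm).measurableSet

variable [FiniteDimensional ℝ E] (μ : Measure E) [μ.IsAddHaarMeasure]

/-- `‖x‖ ^ (-e)` is integrable away from the origin for `e > d`. -/
lemma integrableOn_norm_rpow {e R : ℝ} (he : (finrank ℝ E : ℝ) < e) (hR : 0 < R) :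
    IntegrableOn (fun x : E => ‖x‖ ^ (-e)) (outside E R) μ := by
  have he0 : 0 ≤ e := le_trans (Nat.cast_nonneg _) he.le
  refine Integrable.mono'
    (((integrable_one_add_norm (μ := μ) he).const_mul ((1 + R⁻¹) ^ e)).integrableOn)
    (measurable_norm.pow_const _).aestronglyMeasurable
    ((ae_restrict_mem (measurableSet_outside R)).mono fun x (hx : R < ‖x‖) => ?_)
  have hx0 : 0 < ‖x‖ := hR.trans hx
  rw [Real.norm_eq_abs, abs_of_nonneg (Real.rpow_nonneg hx0.le _), Real.rpow_neg hx0.le,
    Real.rpow_neg (by positivity), ← div_eq_mul_inv,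
    ← Real.div_rpow (by positivity) (by positivity),
    ← Real.inv_rpow hx0.le]
  refine Real.rpow_le_rpow (by positivity) ?_ he0
  rw [le_div_iff₀ (by positivity), inv_mul_eq_div, div_le_iff₀ hx0, add_mul, one_mul]
  have : 1 ≤ R⁻¹ * ‖x‖ := by rw [inv_mul_eq_div, one_le_div hR]; exact hx.le
  linarith

/-- The integral of `‖x‖ ^ (-(d+1))` outside the unit ball. -/
def tailNorm : ℝ := ∫ x in outside E 1, ‖x‖ ^ (-((finrank ℝ E : ℝ) + 1)) ∂μ

omit [BorelSpace E] in
/-- For `1 ≤ x`, `x ^ (-e)` decreases in `e`. -/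
lemma rpow_neg_le_of_one_le {x e e' : ℝ} (hx : 1 ≤ x) (he : e' ≤ e) : x ^ (-e) ≤ x ^ (-e') :=
  Real.rpow_le_rpow_of_exponent_le hx (neg_le_neg he)

/-- Change of variables `x ↦ R • x` in an integral outside a ball. -/
lemma setIntegral_outside_scale {R : ℝ} (hR : 0 < R) (g : E → ℝ) (c : ℝ)
    (hg : ∀ x, R < ‖x‖ → g x = c * g (R⁻¹ • x)) :
    ∫ x in outside E R, g x ∂μ = c * R ^ finrank ℝ E * ∫ x in outside E 1, g x ∂μ := by
  rw [← integral_indicator (measurableSet_outside R),
    ← integral_indicator (measurableSet_outside 1)]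
  have : (outside E R).indicator g = fun x => c * (outside E 1).indicator g (R⁻¹ • x) := by
    funext x
    have hiff : R⁻¹ • x ∈ outside E 1 ↔ x ∈ outside E R := by
      simp only [outside, mem_ofPred_eq, norm_smul, norm_inv, Real.norm_eq_abs, abs_of_pos hR,
        inv_mul_eq_div, one_lt_div hR]
    by_cases hx : x ∈ outside E R
    · rw [indicator_of_mem hx, indicator_of_mem (hiff.mpr hx)]
      exact hg x hx
    · rw [indicator_of_notMem hx, indicator_of_notMem (fun h => hx (hiff.mp h)), mul_zero]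
  rw [this, integral_const_mul, Measure.integral_comp_inv_smul, abs_of_nonneg (by positivity),
    smul_eq_mul, mul_assoc]

namespace Kernel

variable (K : Kernel E) {e : ℝ}

/-- The integral outside the ball of radius `R`. -/
def tail (e R : ℝ) : ℝ := ∫ x in outside E R, K.f e x ∂μ

/-- The integral over `1 < ‖x‖ ≤ 2`. -/
def shell (e : ℝ) : ℝ := ∫ x in outside E 1 \ outside E 2, K.f e x ∂μ

/-- The residue. -/
def residue : ℝ := K.shell μ (finrank ℝ E) / Real.log 2

/-- The kernel is integrable away from the origin for `e > d`. -/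
lemma integrableOn (he : e ∈ expRange E) (he' : (finrank ℝ E : ℝ) < e) {R : ℝ} (hR : 0 < R) :
    IntegrableOn (K.f e) (outside E R) μ :=
  Integrable.mono' ((integrableOn_norm_rpow μ he' hR).const_mul K.A) (K.meas e).aestronglyMeasurable
    ((ae_restrict_mem (measurableSet_outside R)).mono fun x (hx : R < ‖x‖) =>
      K.bound e he x fun h => by rw [h, norm_zero] at hx; linarith)

/-- Homogeneity of the tail integral. -/
lemma tail_eq (he : e ∈ expRange E) {R : ℝ} (hR : 0 < R) :
    K.tail μ e R = R ^ ((finrank ℝ E : ℝ) - e) * K.tail μ e 1 := by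
  rw [tail, setIntegral_outside_scale μ hR (K.f e) (R ^ (-e)) fun x _ => ?_, tail,
    ← Real.rpow_natCast, ← Real.rpow_add hR, add_comm, ← sub_eq_add_neg]
  conv_lhs => rw [← smul_inv_smul₀ hR.ne' x, K.scale e he R hR]

/-- The shell integral is a multiple of the tail outside the unit ball. -/
lemma shell_eq (he : e ∈ expRange E) (he' : (finrank ℝ E : ℝ) < e) :
    K.shell μ e = (1 - (2 : ℝ) ^ ((finrank ℝ E : ℝ) - e)) * K.tail μ e 1 := by
  rw [shell, setIntegral_sdiff (measurableSet_outside 2) (K.integrableOn μ he he' one_pos)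
    (fun x (hx : (2 : ℝ) < ‖x‖) => (by norm_num : (1 : ℝ) < 2).trans hx), ← tail, ← tail,
    K.tail_eq μ he (R := 2) two_pos]
  ring

omit [BorelSpace E] [FiniteDimensional ℝ E] in
lemma abs_f_le_of_one_lt (he : e ∈ expRange E) {x : E} (hx : 1 < ‖x‖) : |K.f e x| ≤ K.A := by
  refine (K.bound e he x fun h => by rw [h, norm_zero] at hx; linarith).trans
    (mul_le_of_le_one_right K.A_nonneg ?_)
  exact Real.rpow_le_one_of_one_le_of_nonpos hx.le
    (neg_nonpos.mpr ((Nat.cast_nonneg _).trans he.1))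

/-- A bound for the shell integrals. -/
def shellBound : ℝ := K.A * μ.real (outside E 1 \ outside E 2)

omit [NormedSpace ℝ E] [MeasurableSpace E] [BorelSpace E] [FiniteDimensional ℝ E] in
lemma isBounded_shell : Bornology.IsBounded (outside E 1 \ outside E 2) :=
  isBounded_iff_forall_norm_le.mpr ⟨2, fun _ hx => not_lt.mp hx.2⟩

omit [BorelSpace E] in
lemma abs_shell_le (he : e ∈ expRange E) : |K.shell μ e| ≤ K.shellBound μ :=
  norm_setIntegral_le_of_norm_le_const (μ := μ) (f := K.f e) (C := K.A)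
    isBounded_shell.measure_lt_top fun x (hx : x ∈ _) => K.abs_f_le_of_one_lt he hx.1

omit [BorelSpace E] [FiniteDimensional ℝ E] [μ.IsAddHaarMeasure] in
/-- The shell bound is nonnegative. -/
lemma shellBound_nonneg : 0 ≤ K.shellBound μ := mul_nonneg K.A_nonneg measureReal_nonneg

omit [μ.IsAddHaarMeasure] in
lemma half_le_one_sub_rpow {x : ℝ} (hx0 : 0 ≤ x) (hx1 : x ≤ 1) : x / 2 ≤ 1 - (2 : ℝ) ^ (-x) := by
  have h := rpow_one_add_le_one_add_mul_self (s := (-1 / 2 : ℝ)) (by norm_num) hx0 hx1
  norm_num at h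
  rw [show (2 : ℝ) ^ (-x) = (1 / 2 : ℝ) ^ x by
    rw [one_div, Real.inv_rpow two_pos.le, Real.rpow_neg two_pos.le]]
  linarith

/-- The tail has at most a simple pole at `e = d`, uniformly. -/
lemma sub_mul_abs_tail_le (he : e ∈ expRange E) (he' : (finrank ℝ E : ℝ) < e) :
    (e - finrank ℝ E) * |K.tail μ e 1| ≤ 2 * K.shellBound μ := by
  have h1 := K.shell_eq μ he he'
  have h2 := half_le_one_sub_rpow (x := e - finrank ℝ E) (by linarith) (by linarith [he.2])
  rw [neg_sub] at h2
  have h3 := K.abs_shell_le μ he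
  rw [h1, abs_mul, abs_of_nonneg (by linarith [sub_pos.mpr he'])] at h3
  nlinarith [abs_nonneg (K.tail μ e 1)]

/-- Tails at radius `R ≥ 1` and `1` differ by `O(R)`, uniformly in `e`. -/
lemma abs_tail_sub_le (he : e ∈ expRange E) (he' : (finrank ℝ E : ℝ) < e) {R : ℝ} (hR : 1 ≤ R) :
    |K.tail μ e R - K.tail μ e 1| ≤ 2 * K.shellBound μ * R := by
  rw [K.tail_eq μ he (one_pos.trans_le hR), ← sub_one_mul, abs_mul]
  set x := e - finrank ℝ E
  have hlog : 0 ≤ Real.log R := Real.log_nonneg hR
  have hx : |R ^ ((finrank ℝ E : ℝ) - e) - 1| ≤ x * R := by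
    rw [Real.rpow_def_of_pos (one_pos.trans_le hR),
      abs_of_nonpos (by
        rw [sub_nonpos, Real.exp_le_one_iff]
        exact mul_nonpos_of_nonneg_of_nonpos hlog (by linarith))]
    have h1 := Real.add_one_le_exp (Real.log R * ((finrank ℝ E : ℝ) - e))
    have h2 : Real.log R ≤ R := Real.log_le_self (by linarith)
    have h3 : 0 ≤ x := by simp only [x]; linarith
    nlinarith [mul_le_mul_of_nonneg_right h2 h3]
  refine (mul_le_mul_of_nonneg_right hx (abs_nonneg _)).trans ?_
  have := mul_le_mul_of_nonneg_left (K.sub_mul_abs_tail_le μ he he') (zero_le_one.trans hR)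
  nlinarith

end Kernel

end Fermat.Agent.LT.Epstein
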