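import Fermat.Agent.LT.Epstein.Kernel
import Mathlib.Algebra.Module.ZLattice.Basic
import Mathlib.MeasureTheory.Group.Integral
import Mathlib.MeasureTheory.Group.FundamentalDomain

/-!
# Lattice sums of homogeneous kernels

For a lattice coset `a + Λ` avoiding `0` by `lam`, `covol(Λ) * ∑ f e (a + l)` differs from the tail
integral of `f e` by a bound polynomial in `1 + ∑ ‖b i‖ + lam⁻¹`, uniformly for `d < e ≤ d + 1`.
-/

set_option autoImplicit false

noncomputable section

open MeasureTheory Module Filter Set Metric Submodule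
open scoped Topology ENNReal Pointwise

namespace Fermat.Agent.LT.Epstein

variable {E : Type*} [NormedAddCommGroup E] [NormedSpace ℝ E] [MeasurableSpace E] [BorelSpace E]
  [FiniteDimensional ℝ E] (μ : Measure E) [μ.IsAddHaarMeasure]
  {ι : Type*} [Fintype ι] (b : Basis ι ℝ E)

/-- The lattice spanned by `b`. -/
abbrev lat : Submodule ℤ E := Submodule.span ℤ (Set.range b)

/-- Its covolume. -/
def covol : ℝ := μ.real (ZSpan.fundamentalDomain b)

/-- The size of the basis. -/
def rho : ℝ := ∑ i, ‖b i‖

omit [MeasurableSpace E] [BorelSpace E] [FiniteDimensional ℝ E] in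
/-- The size of the basis is nonnegative. -/
lemma rho_nonneg : 0 ≤ rho b := Finset.sum_nonneg fun _ _ => norm_nonneg _

omit [MeasurableSpace E] [BorelSpace E] [FiniteDimensional ℝ E] in
lemma norm_le_rho {x : E} (hx : x ∈ ZSpan.fundamentalDomain b) : ‖x‖ ≤ rho b := by
  rw [← ZSpan.fract_eq_self.mpr hx]
  exact ZSpan.norm_fract_le b x

omit [BorelSpace E] in
/-- The fundamental domain has finite measure. -/
lemma fundamentalDomain_measure_lt_top : μ (ZSpan.fundamentalDomain b) < ⊤ :=
  (ZSpan.fundamentalDomain_isBounded b).measure_lt_top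

/-- An integral is the sum over the translates of the fundamental domain. -/
lemma hasSum_cell {G : E → ℝ} (hG : Integrable G μ) (a : E) :
    HasSum (fun l : lat b => ∫ x in ZSpan.fundamentalDomain b, G (a + l + x) ∂μ) (∫ x, G x ∂μ) := by
  have h := ZSpan.isAddFundamentalDomain b μ
  have : Countable (lat b) := inferInstance
  have : VAddInvariantMeasure (lat b) E μ :=
    inferInstanceAs (VAddInvariantMeasure (lat b).toAddSubgroup E μ)
  have hs := hasSum_integral_iUnion_ae (μ := μ) (f := fun y => G (a + y))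
    (s := fun l : lat b => l +ᵥ ZSpan.fundamentalDomain b)
    (fun l => h.nullMeasurableSet_vadd l) h.aedisjoint (hG.comp_add_left a).integrableOn
  rw [Measure.restrict_congr_set h.iUnion_vadd_ae_eq, Measure.restrict_univ,
    integral_add_left_eq_self G a] at hs
  refine hs.congr_fun fun l => ?_
  have e : (l +ᵥ ZSpan.fundamentalDomain b : Set E) =
      (MeasurableEquiv.addLeft (l : E)) '' ZSpan.fundamentalDomain b := by
    rw [← Set.image_vadd]; rfl
  rw [e, MeasurableEquiv.coe_addLeft, (measurePreserving_add_left μ (l : E)).setIntegral_image_emb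
    (measurableEmbedding_addLeft (l : E)) (fun y => G (a + y))]
  simp only [add_assoc]

variable {μ}

omit [Fintype ι] in
/-- The number of coset points in a ball. -/
lemma card_le [Nontrivial E] {a : E} {lam R : ℝ} (hlam : 0 < lam) (hR : 0 ≤ R)
    (hsep : ∀ l : lat b, l ≠ 0 → lam ≤ ‖(l : E)‖) (T : Finset (lat b))
    (hT : ∀ l ∈ T, ‖a + l‖ ≤ R) :
    (T.card : ℝ) ≤ (1 + 2 * R / lam) ^ finrank ℝ E := by
  classical
  set μ' : Measure E := Measure.addHaar
  set d := finrank ℝ E
  have hdis : (T : Set (lat b)).PairwiseDisjoint fun l => ball (a + (l : E)) (lam / 2) := by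
    intro l _ l' _ hne
    refine Metric.ball_disjoint_ball ?_
    rw [dist_eq_norm, add_sub_add_left_eq_sub, ← Submodule.coe_sub, add_halves]
    exact hsep _ (sub_ne_zero.mpr hne)
  have hmeas := measure_biUnion_finset (μ := μ') hdis fun l _ => measurableSet_ball
  have hsub : (⋃ l ∈ T, ball (a + (l : E)) (lam / 2)) ⊆ closedBall 0 (R + lam / 2) := by
    simp only [iUnion_subset_iff]
    intro l hl x hx
    rw [mem_closedBall_zero_iff]
    rw [mem_ball, dist_eq_norm] at hx
    linarith [norm_le_norm_add_norm_sub' x (a + (l : E)), hT l hl]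
  have h1 := hmeas ▸ measure_mono (μ := μ') hsub
  simp only [Measure.addHaar_ball μ' _ (by positivity : (0 : ℝ) ≤ lam / 2), Finset.sum_const,
    nsmul_eq_mul, Measure.addHaar_closedBall μ' _ (by positivity : (0 : ℝ) ≤ R + lam / 2),
    ← mul_assoc, ← ENNReal.ofReal_natCast, ← ENNReal.ofReal_mul (Nat.cast_nonneg' _)] at h1
  rw [ENNReal.mul_le_mul_iff_left (measure_ball_pos μ' 0 one_pos).ne' measure_ball_lt_top.ne,
    ENNReal.ofReal_le_ofReal_iff (by positivity)] at h1
  have h2 : (1 + 2 * R / lam) ^ d = (R + lam / 2) ^ d / (lam / 2) ^ d := by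
    rw [← div_pow]; congr 1; field_simp; ring
  rw [h2, le_div_iff₀ (by positivity)]
  exact h1

namespace Kernel

variable (K : Kernel E)

/-- Majorant of the difference between a cell value and the tail integrand. -/
def majorant (ρ R : ℝ) : ℝ :=
  (2 : ℝ) ^ ((finrank ℝ E : ℝ) + 2) * (K.B * ρ + K.A * (2 * R))

omit [BorelSpace E] [FiniteDimensional ℝ E] in
lemma majorant_nonneg {ρ R : ℝ} (hρ : 0 ≤ ρ) (hR : 0 ≤ R) : 0 ≤ K.majorant ρ R := by
  have := K.A_nonneg; have := K.B_nonneg
  unfold majorant; positivity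

omit [BorelSpace E] [FiniteDimensional ℝ E] in
omit [MeasurableSpace E] in
lemma rpow_compare {e v y : ℝ} (he : e ∈ expRange E) (hy : 0 < y) (h : y ≤ 2 * v) :
    v ^ (-e - 1) ≤ (2 : ℝ) ^ ((finrank ℝ E : ℝ) + 2) * y ^ (-e - 1) := by
  have he0 : (0 : ℝ) ≤ e := (Nat.cast_nonneg _).trans he.1
  have h1 : v ^ (-e - 1) ≤ (y / 2) ^ (-e - 1) :=
    Real.rpow_le_rpow_of_nonpos (by positivity) (by linarith) (by linarith)
  refine h1.trans ?_
  rw [Real.div_rpow hy.le two_pos.le, div_eq_inv_mul]
  refine mul_le_mul_of_nonneg_right ?_ (Real.rpow_nonneg hy.le _)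
  rw [← Real.rpow_neg two_pos.le]
  exact Real.rpow_le_rpow_of_exponent_le one_le_two (by linarith [he.2])

omit [BorelSpace E] [FiniteDimensional ℝ E] in
/-- Pointwise comparison on a cell. -/
lemma cell_le {e ρ R : ℝ} (he : e ∈ expRange E) (hR : 2 * ρ + 1 ≤ R) (hρ : 0 ≤ ρ) {v x : E}
    (hx : ‖x‖ ≤ ρ) :
    |(outside E R).indicator (K.f e) v - (outside E R).indicator (K.f e) (v + x)| ≤
      (outside E (R - ρ)).indicator (fun y => K.majorant ρ R * ‖y‖ ^ (-e - 1)) (v + x) := by
  have he0 : (0 : ℝ) ≤ e := (Nat.cast_nonneg _).trans he.1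
  have hR0 : 0 < R := by linarith
  have hB : 0 ≤ K.B * ρ := mul_nonneg K.B_nonneg hρ
  have hA : 0 ≤ K.A * (2 * R) := mul_nonneg K.A_nonneg (by linarith)
  have htri : ‖v + x‖ ≤ ‖v‖ + ‖x‖ := norm_add_le _ _
  have htri' : ‖v‖ ≤ ‖v + x‖ + ‖x‖ := by simpa using norm_sub_le (v + x) x
  by_cases hin : R - ρ < ‖v + x‖
  swap
  · have h2 : v + x ∉ outside E R := fun h => hin (show R - ρ < ‖v + x‖ by
      have : R < ‖v + x‖ := h
      linarith)
    have h1 : v ∉ outside E R := fun (h : R < ‖v‖) => hin (by linarith)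
    rw [indicator_of_notMem h1, indicator_of_notMem h2,
      indicator_of_notMem (show v + x ∉ outside E (R - ρ) from hin), sub_zero, abs_zero]
  rw [indicator_of_mem (show v + x ∈ outside E (R - ρ) from hin)]
  have hy : 0 < ‖v + x‖ := by linarith
  unfold majorant
  rw [mul_comm ((2 : ℝ) ^ _), mul_assoc]
  have hsingle : ∀ z : E, R < ‖z‖ → (‖v + x‖ ≤ 2 * R) →
      |K.f e z| ≤ (K.B * ρ + K.A * (2 * R)) *
        ((2 : ℝ) ^ ((finrank ℝ E : ℝ) + 2) * ‖v + x‖ ^ (-e - 1)) := by
    intro z hz hz'
    refine (K.bound e he z fun h => by rw [h, norm_zero] at hz; linarith).trans ?_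
    calc K.A * ‖z‖ ^ (-e) ≤ K.A * R ^ (-e) := mul_le_mul_of_nonneg_left
          (Real.rpow_le_rpow_of_nonpos hR0 hz.le (by linarith)) K.A_nonneg
      _ = K.A * R * R ^ (-e - 1) := by
          rw [Real.rpow_sub hR0, Real.rpow_one]; field_simp
      _ ≤ (K.B * ρ + K.A * (2 * R)) *
          ((2 : ℝ) ^ ((finrank ℝ E : ℝ) + 2) * ‖v + x‖ ^ (-e - 1)) := by
          refine mul_le_mul (by nlinarith [K.A_nonneg]) (rpow_compare he hy hz')
            (Real.rpow_nonneg hR0.le _) (by positivity)
  by_cases h1 : R < ‖v‖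
  · by_cases h2 : R < ‖v + x‖
    · rw [indicator_of_mem (show v ∈ outside E R from h1),
        indicator_of_mem (show v + x ∈ outside E R from h2)]
      refine (K.lip e he v (v + x) (fun h => by rw [h, norm_zero] at h1; linarith)
        (by rw [add_sub_cancel_left]; linarith)).trans ?_
      rw [add_sub_cancel_left]
      exact mul_le_mul ((mul_le_mul_of_nonneg_left hx K.B_nonneg).trans (le_add_of_nonneg_right hA))
        (rpow_compare he hy (by linarith)) (Real.rpow_nonneg (norm_nonneg _) _) (by linarith)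
    · rw [indicator_of_mem (show v ∈ outside E R from h1),
        indicator_of_notMem (show v + x ∉ outside E R from h2), sub_zero]
      exact hsingle v h1 (by linarith)
  · by_cases h2 : R < ‖v + x‖
    · rw [indicator_of_notMem (show v ∉ outside E R from h1),
        indicator_of_mem (show v + x ∈ outside E R from h2), zero_sub, abs_neg]
      exact hsingle (v + x) h2 (by linarith)
    · rw [indicator_of_notMem (show v ∉ outside E R from h1),
        indicator_of_notMem (show v + x ∉ outside E R from h2), sub_zero, abs_zero]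
      have := Real.rpow_pos_of_pos (two_pos : (0 : ℝ) < 2) ((finrank ℝ E : ℝ) + 2)
      positivity

variable (μ)

/-- The sum over coset points outside a ball. -/
lemma abs_outer_le {e R : ℝ} (he : e ∈ expRange E) (he' : (finrank ℝ E : ℝ) < e)
    (hR : 2 * rho b + 1 ≤ R) (a : E) :
    Summable (fun l : lat b => (outside E R).indicator (K.f e) (a + l)) ∧
    |covol μ b * ∑' l : lat b, (outside E R).indicator (K.f e) (a + l) - K.tail μ e R| ≤
      K.majorant (rho b) R * tailNorm μ := by
  have hρ := rho_nonneg b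
  set P := ZSpan.fundamentalDomain b
  have hPtop : μ P < ⊤ := fundamentalDomain_measure_lt_top μ b
  have hPm : MeasurableSet P := ZSpan.fundamentalDomain_measurableSet b
  set F := (outside E R).indicator (K.f e)
  set M := (outside E (R - rho b)).indicator fun y => K.majorant (rho b) R * ‖y‖ ^ (-e - 1)
  have hF : Integrable F μ :=
    (K.integrableOn μ he he' (by linarith)).integrable_indicator (measurableSet_outside R)
  have hM : Integrable M μ := by
    have h := (integrableOn_norm_rpow μ (e := e + 1) (by linarith)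
      (show 0 < R - rho b by linarith)).const_mul
      (K.majorant (rho b) R)
    simp only [neg_add, ← sub_eq_add_neg] at h
    exact IntegrableOn.integrable_indicator h (measurableSet_outside _)
  have hcell : ∀ l : lat b, ‖covol μ b * F (a + l) - ∫ x in P, F (a + l + x) ∂μ‖ ≤
      ∫ x in P, M (a + l + x) ∂μ := by
    intro l
    rw [show covol μ b * F (a + l) = ∫ _ in P, F (a + l) ∂μ by
        rw [setIntegral_const, smul_eq_mul]; rfl,
      ← integral_sub (integrableOn_const hPtop.ne : IntegrableOn (fun _ => F (a + l)) P μ)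
          (hF.comp_add_left _).integrableOn]
    exact norm_integral_le_of_norm_le (hM.comp_add_left _).integrableOn
      ((ae_restrict_mem hPm).mono fun x hx => K.cell_le he hR hρ (norm_le_rho b hx))
  have hsF := hasSum_cell μ b hF a
  have hsM := hasSum_cell μ b hM a
  have hsdiff : Summable fun l : lat b => covol μ b * F (a + l) - ∫ x in P, F (a + l + x) ∂μ :=
    Summable.of_norm_bounded hsM.summable hcell
  have hsum : Summable fun l : lat b => covol μ b * F (a + l) :=
    (hsdiff.add hsF.summable).congr fun l => sub_add_cancel _ _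
  have hcov : covol μ b ≠ 0 :=
    ENNReal.toReal_ne_zero.mpr ⟨ZSpan.measure_fundamentalDomain_ne_zero b, hPtop.ne⟩
  refine ⟨(summable_mul_left_iff hcov).mp hsum, ?_⟩
  rw [← tsum_mul_left, show K.tail μ e R = ∫ x, F x ∂μ from
    (integral_indicator (measurableSet_outside R)).symm, ← hsF.tsum_eq,
    ← hsum.tsum_sub hsF.summable]
  refine (tsum_of_norm_bounded hsM hcell).trans ?_
  rw [integral_indicator (measurableSet_outside _), integral_const_mul]
  refine mul_le_mul_of_nonneg_left ?_ (K.majorant_nonneg hρ (by linarith))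
  calc ∫ x in outside E (R - rho b), ‖x‖ ^ (-e - 1) ∂μ
      ≤ ∫ x in outside E (R - rho b), ‖x‖ ^ (-((finrank ℝ E : ℝ) + 1)) ∂μ := by
        refine setIntegral_mono_on ?_ (integrableOn_norm_rpow μ (by linarith) (by linarith))
          (measurableSet_outside _) fun x (hx : R - rho b < ‖x‖) => ?_
        · have := integrableOn_norm_rpow μ (e := e + 1) (by linarith)
            (show 0 < R - rho b by linarith)
          simpa only [neg_add, ← sub_eq_add_neg] using this
        · rw [show -e - 1 = -(e + 1) by ring]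
          exact rpow_neg_le_of_one_le (by linarith) (by linarith)
    _ ≤ tailNorm μ := setIntegral_mono_set
        (integrableOn_norm_rpow μ (by linarith) one_pos)
        (Eventually.of_forall fun x => Real.rpow_nonneg (norm_nonneg _) _)
        (Eventually.of_forall fun x (hx : R - rho b < ‖x‖) => show (1 : ℝ) < ‖x‖ by linarith)

/-- The constant in `abs_sum_sub_le`. -/
def sumConst : ℝ :=
  (2 : ℝ) ^ ((finrank ℝ E : ℝ) + 2) * (K.B + 4 * K.A) * tailNorm μ + 4 * K.shellBound μ +
    μ.real (closedBall (0 : E) 1) * 5 ^ finrank ℝ E * K.A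

/-- **The uniform estimate.** -/
theorem abs_sum_sub_le [Nontrivial E] {e lam : ℝ} (he : e ∈ expRange E)
    (he' : (finrank ℝ E : ℝ) < e) (a : E) (hlam : 0 < lam)
    (hsep : ∀ l : lat b, l ≠ 0 → lam ≤ ‖(l : E)‖)
    (hmin : ∀ l : lat b, a + l ≠ 0 → lam ≤ ‖a + l‖) :
    Summable (fun l : lat b => K.f e (a + l)) ∧
    |covol μ b * ∑' l : lat b, K.f e (a + l) - K.tail μ e 1| ≤
      K.sumConst μ * (1 + rho b + lam⁻¹) ^ (4 * finrank ℝ E + 1) := by
  classical
  have hρ := rho_nonneg b
  set d := finrank ℝ E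
  set H := 1 + rho b + lam⁻¹
  have hH1 : 1 ≤ H := by simp only [H]; linarith [inv_pos.mpr hlam]
  have hH0 : (0 : ℝ) ≤ H := zero_le_one.trans hH1
  set R := 2 * rho b + 1
  have hR1 : 1 ≤ R := by simp only [R]; linarith
  have hRH : R ≤ 2 * H := by simp only [R, H]; linarith [inv_pos.mpr hlam]
  obtain ⟨houts, hout⟩ := K.abs_outer_le μ b he he' (le_refl R) a
  set small : lat b → ℝ := fun l => ((outside E R)ᶜ).indicator (K.f e) (a + l)
  have hsplit : ∀ l : lat b, K.f e (a + l) = small l + (outside E R).indicator (K.f e) (a + l) :=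
    fun l => (congrFun (indicator_compl_add_self (outside E R) (K.f e)) (a + l)).symm
  have hfin : {l : lat b | ‖a + l‖ ≤ R}.Finite := by
    refine (ZSpan.setFinite_inter b (isBounded_closedBall (x := -a) (r := R))).preimage
      Subtype.val_injective.injOn |>.subset fun l hl => ⟨?_, l.2⟩
    rwa [mem_closedBall, dist_eq_norm, sub_neg_eq_add, add_comm]
  have hsupp : ∀ l ∉ hfin.toFinset, small l = 0 := fun l hl =>
    indicator_of_notMem (fun (h : ¬ (R < ‖a + (l : E)‖)) =>
      hl (hfin.mem_toFinset.mpr (not_lt.mp h : ‖a + (l : E)‖ ≤ R))) _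
  have hssum : HasSum small (∑ l ∈ hfin.toFinset, small l) := hasSum_sum_of_ne_finset_zero hsupp
  refine ⟨(hssum.summable.add houts).congr fun l => (hsplit l).symm, ?_⟩
  rw [tsum_congr hsplit, hssum.summable.tsum_add houts, hssum.tsum_eq, mul_add]
  have hone : ∀ l ∈ hfin.toFinset, |small l| ≤ K.A * H ^ (d + 1) := by
    intro l _
    by_cases h : a + (l : E) ∈ (outside E R)ᶜ
    · simp only [small, indicator_of_mem h]
      rcases eq_or_ne (a + (l : E)) 0 with h0 | h0
      · rw [h0, K.zero e he, abs_zero]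
        exact mul_nonneg K.A_nonneg (pow_nonneg hH0 _)
      · refine (K.bound e he _ h0).trans (mul_le_mul_of_nonneg_left ?_ K.A_nonneg)
        calc ‖a + (l : E)‖ ^ (-e) ≤ lam ^ (-e) := Real.rpow_le_rpow_of_nonpos hlam (hmin l h0)
              (by linarith [(Nat.cast_nonneg d : (0:ℝ) ≤ d)])
          _ = lam⁻¹ ^ e := by rw [Real.rpow_neg hlam.le, Real.inv_rpow hlam.le]
          _ ≤ H ^ e := Real.rpow_le_rpow (by positivity) (by simp only [H]; linarith)
              ((Nat.cast_nonneg d).trans he.1)
          _ ≤ H ^ ((d + 1 : ℕ) : ℝ) :=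
              Real.rpow_le_rpow_of_exponent_le hH1 (by push_cast; exact he.2)
          _ = H ^ (d + 1) := Real.rpow_natCast _ _
    · simp only [small, indicator_of_notMem h, abs_zero]
      exact mul_nonneg K.A_nonneg (pow_nonneg hH0 _)
  have hcard : (hfin.toFinset.card : ℝ) ≤ 5 ^ d * H ^ (2 * d) := by
    refine (card_le b hlam (zero_le_one.trans hR1) hsep _
      fun l hl => (hfin.mem_toFinset.mp hl : _)).trans ?_
    rw [pow_mul, ← mul_pow]
    refine pow_le_pow_left₀ (by positivity) ?_ _
    have h2 : 2 * R / lam ≤ 4 * H * H := by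
      rw [div_eq_mul_inv]
      exact mul_le_mul (by linarith) (by simp only [H]; linarith) (by positivity) (by positivity)
    nlinarith
  have hcov : covol μ b ≤ H ^ d * μ.real (closedBall (0 : E) 1) := by
    have h1 : μ (ZSpan.fundamentalDomain b) ≤ μ (closedBall 0 H) :=
      measure_mono fun x hx => by
        rw [mem_closedBall_zero_iff]
        have := norm_le_rho b hx
        simp only [H]; linarith [inv_pos.mpr hlam]
    rw [covol, measureReal_def]
    refine (ENNReal.toReal_mono measure_closedBall_lt_top.ne h1).trans_eq ?_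
    rw [Measure.addHaar_closedBall' μ 0 hH0, ENNReal.toReal_mul,
      ENNReal.toReal_ofReal (by positivity), measureReal_def]
  have hsmallb : |covol μ b * ∑ l ∈ hfin.toFinset, small l| ≤
      μ.real (closedBall (0 : E) 1) * 5 ^ d * K.A * H ^ (4 * d + 1) := by
    rw [abs_mul, abs_of_nonneg (show 0 ≤ covol μ b from measureReal_nonneg)]
    calc covol μ b * |∑ l ∈ hfin.toFinset, small l|
        ≤ (H ^ d * μ.real (closedBall (0 : E) 1)) *
          (5 ^ d * H ^ (2 * d) * (K.A * H ^ (d + 1))) := by
          refine mul_le_mul hcov ?_ (abs_nonneg _) (by positivity)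
          refine (Finset.abs_sum_le_sum_abs _ _).trans
            ((Finset.sum_le_card_nsmul _ _ _ hone).trans ?_)
          rw [nsmul_eq_mul]
          exact mul_le_mul_of_nonneg_right hcard (mul_nonneg K.A_nonneg (pow_nonneg hH0 _))
      _ = _ := by
          ring
  have hpow : H ≤ H ^ (4 * d + 1) := le_self_pow₀ hH1 (by omega)
  have htn : 0 ≤ tailNorm μ := setIntegral_nonneg (measurableSet_outside 1) fun x _ => by positivity
  have hmaj : K.majorant (rho b) R ≤ (2 : ℝ) ^ ((d : ℝ) + 2) * (K.B + 4 * K.A) * H := by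
    rw [majorant, mul_assoc]
    refine mul_le_mul_of_nonneg_left ?_ (by positivity)
    have : rho b ≤ H := by simp only [H]; linarith [inv_pos.mpr hlam]
    nlinarith [K.A_nonneg, K.B_nonneg]
  have htail := K.abs_tail_sub_le μ he he' hR1
  rw [sumConst, add_mul, add_mul]
  calc |covol μ b * ∑ l ∈ hfin.toFinset, small l +
        covol μ b * ∑' l : lat b, (outside E R).indicator (K.f e) (a + l) - K.tail μ e 1|
      = |covol μ b * ∑ l ∈ hfin.toFinset, small l +
        (covol μ b * ∑' l : lat b, (outside E R).indicator (K.f e) (a + l) - K.tail μ e R) +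
        (K.tail μ e R - K.tail μ e 1)| := by congr 1; ring
    _ ≤ _ := by
      refine (abs_add_three _ _ _).trans ?_
      have h3 : K.majorant (rho b) R * tailNorm μ ≤
          (2 : ℝ) ^ ((d : ℝ) + 2) * (K.B + 4 * K.A) * tailNorm μ * H ^ (4 * d + 1) := by
        calc _ ≤ (2 : ℝ) ^ ((d : ℝ) + 2) * (K.B + 4 * K.A) * H ^ (4 * d + 1) * tailNorm μ :=
              mul_le_mul_of_nonneg_right (hmaj.trans (mul_le_mul_of_nonneg_left hpow
                (by have := K.A_nonneg; have := K.B_nonneg; positivity))) htn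
          _ = _ := by ring
      have h4 : 2 * K.shellBound μ * R ≤ 4 * K.shellBound μ * H ^ (4 * d + 1) := by
        nlinarith [K.shellBound_nonneg μ, hRH.trans (mul_le_mul_of_nonneg_left hpow two_pos.le)]
      linarith

end Kernel

end Fermat.Agent.LT.Epstein

namespace Fermat.Agent.LT.Epstein.Kernel

variable {E : Type*} [NormedAddCommGroup E] [NormedSpace ℝ E] [MeasurableSpace E] [BorelSpace E]
  [FiniteDimensional ℝ E] [Nontrivial E] (μ : Measure E) [μ.IsAddHaarMeasure]
  {ι : Type*} [Fintype ι] (b : Basis ι ℝ E) (K : Kernel E)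

end Fermat.Agent.LT.Epstein.Kernel
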